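import Fermat.Agent.X1Eleven.OrderEleven
import Fermat.Agent.SmallPrimes.FreyCofixed

/-!
The Frey curve has no cofixed line for `p = 11`, given quotients by stable subgroups.
-/

set_option autoImplicit false

namespace FLTAgent.X1Eleven

open WeierstrassCurve WeierstrassCurve.Affine WeierstrassCurve.Affine.Point
open scoped WeierstrassCurve.Affine

/-- `p = 11`: no cofixed line on the Frey curve. -/
theorem frey_no_cofixed_eleven (P : FreyPackage)
    (hquot : SmallPrimes.HasOddQuotients P.freyCurve) (hp : P.p = 11) :
    ¬ HasGaloisStableCofixedLine (K := AlgebraicClosure ℚ) ℚ P.freyCurve P.p := by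
  intro h
  have := X13.isElliptic_freyCurve P
  have : Fact P.p.Prime := ⟨P.pp⟩
  obtain ⟨W', φ, -, -, R, hR⟩ := SmallPrimes.exists_map_of_cofixed hquot (by omega) h
  exact addOrderOf_ne_eleven _ R (hR.trans hp)

end FLTAgent.X1Eleven
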