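import Mathlib

/-!
The cubic field `ℚ(ω)`, `ω³ = 2ω² - 2`, of discriminant `-44`.
-/

set_option autoImplicit false

namespace FLTAgent.X1Eleven

noncomputable section

local notation "f₀" =>
  (Polynomial.X ^ 3 - Polynomial.C 2 * Polynomial.X ^ 2 + Polynomial.C 2 : Polynomial ℚ)

lemma cubic_natDegree : (f₀).natDegree = 3 := by compute_degree!

lemma cubic_monic : (f₀).Monic := by monicity!

lemma cubic_no_root (x : ℚ) : x ^ 3 - 2 * x ^ 2 + 2 ≠ 0 := by
  intro h
  have hx : x = x.num / x.den := x.num_div_den.symm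
  have hd : (x.den : ℚ) ≠ 0 := by exact_mod_cast x.den_nz
  rw [hx] at h
  field_simp at h
  have h' : x.num ^ 3 - 2 * x.num ^ 2 * x.den + 2 * (x.den : ℤ) ^ 3 = 0 := by
    exact_mod_cast (by linarith : (x.num : ℚ) ^ 3 - 2 * (x.num : ℚ) ^ 2 * (x.den : ℚ)
      + 2 * (x.den : ℚ) ^ 3 = 0)
  have hcop : IsCoprime ((x.den : ℤ)) (x.num ^ 3) := by
    refine IsCoprime.pow_right ?_
    rw [Int.isCoprime_iff_gcd_eq_one, Int.gcd_comm]
    exact x.reduced
  have hu : IsUnit (x.den : ℤ) :=
    hcop.isUnit_of_dvd' dvd_rfl ⟨2 * x.num ^ 2 - 2 * (x.den : ℤ) ^ 2, by linarith⟩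
  have h1 : (x.den : ℤ) = 1 := by
    rcases Int.isUnit_iff.mp hu with h | h <;> omega
  rw [h1] at h'
  have h2 : x.num ∣ 2 := ⟨-x.num ^ 2 + 2 * x.num, by linarith⟩
  have h3 := Int.le_of_dvd (by norm_num) (abs_dvd _ _ |>.mpr h2)
  obtain ⟨h4, h5⟩ := abs_le.mp h3
  interval_cases hn : x.num <;> norm_num at h'

lemma cubic_irreducible : Irreducible (f₀) := by
  rw [cubic_monic.irreducible_iff_roots_eq_zero_of_degree_le_three
    (by rw [cubic_natDegree]; norm_num) (by rw [cubic_natDegree])]
  rw [Multiset.eq_zero_iff_forall_notMem]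
  intro x hx
  rw [Polynomial.mem_roots cubic_monic.ne_zero] at hx
  exact cubic_no_root x (by simpa [Polynomial.IsRoot] using hx)

instance factCubicIrreducible : Fact (Irreducible (f₀)) := ⟨cubic_irreducible⟩

/-- The cubic field of discriminant `-44`. -/
abbrev CubicField : Type := AdjoinRoot (f₀)

local notation "K" => CubicField

instance cubicFieldNumberField : NumberField K where
  to_charZero := charZero_of_injective_algebraMap (algebraMap ℚ K).injective
  to_finiteDimensional := (AdjoinRoot.powerBasis cubic_monic.ne_zero).finite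

/-- `ω` as element of the field. -/
def omegaField : K := AdjoinRoot.root _

lemma omegaField_rel : omegaField ^ 3 = 2 * omegaField ^ 2 - 2 := by
  have h := AdjoinRoot.eval₂_root (f₀)
  simp only [Polynomial.eval₂_add, Polynomial.eval₂_sub, Polynomial.eval₂_mul,
    Polynomial.eval₂_pow, Polynomial.eval₂_X, Polynomial.eval₂_C, Polynomial.eval₂_ofNat, map_ofNat] at h
  unfold omegaField
  linear_combination h

/-- The basis `1, ω, ω²`. -/
def cubicBasis : Module.Basis (Fin 3) ℚ K :=
  (AdjoinRoot.powerBasis cubic_monic.ne_zero).basis.reindex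
    (finCongr (by rw [AdjoinRoot.powerBasis_dim, cubic_natDegree]))

lemma cubicBasis_apply (i : Fin 3) : cubicBasis i = omegaField ^ (i : ℕ) := by
  simp [cubicBasis, omegaField]

lemma finrank_cubicField : Module.finrank ℚ K = 3 := by
  rw [Module.finrank_eq_card_basis cubicBasis, Fintype.card_fin]

/-- `a + bω + cω²`. -/
def elem (a b c : ℚ) : K :=
  algebraMap ℚ K a + algebraMap ℚ K b * omegaField + algebraMap ℚ K c * omegaField ^ 2

lemma cubicBasis_repr (a b c : ℚ) : (cubicBasis.repr (elem a b c) : Fin 3 → ℚ) = ![a, b, c] := by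
  have : elem a b c = cubicBasis.equivFun.symm ![a, b, c] := by
    rw [Module.Basis.equivFun_symm_apply, Fin.sum_univ_three]
    simp [elem, cubicBasis_apply, Algebra.smul_def]
  rw [this, ← Module.Basis.equivFun_apply, LinearEquiv.apply_symm_apply]

lemma elem_inj {a b c a' b' c' : ℚ} (h : elem a b c = elem a' b' c') :
    a = a' ∧ b = b' ∧ c = c' := by
  have h' : ![a, b, c] = ![a', b', c'] := by rw [← cubicBasis_repr, h, cubicBasis_repr]
  exact ⟨congrFun h' 0, congrFun h' 1, congrFun h' 2⟩

lemma exists_elem (x : K) : ∃ a b c, x = elem a b c := by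
  refine ⟨cubicBasis.repr x 0, cubicBasis.repr x 1, cubicBasis.repr x 2, ?_⟩
  conv_lhs => rw [← cubicBasis.sum_repr x, Fin.sum_univ_three]
  simp [elem, cubicBasis_apply, Algebra.smul_def]

lemma elem_mul (a b c a' b' c' : ℚ) :
    elem a b c * elem a' b' c' = elem (a * a' - 2 * (b * c' + c * b') - 4 * c * c')
      (a * b' + b * a' - 2 * c * c')
      (a * c' + b * b' + c * a' + 2 * (b * c' + c * b') + 4 * c * c') := by
  have h4 : omegaField ^ 4 = 4 * omegaField ^ 2 - 2 * omegaField - 4 := by
    linear_combination (omegaField + 2) * omegaField_rel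
  simp only [elem, map_add, map_sub, map_mul, map_ofNat]
  linear_combination ((algebraMap ℚ K b) * (algebraMap ℚ K c') + (algebraMap ℚ K c) *
    (algebraMap ℚ K b')) * omegaField_rel + (algebraMap ℚ K c) * (algebraMap ℚ K c') * h4

lemma leftMulMatrix_elem (a b c : ℚ) :
    Algebra.leftMulMatrix cubicBasis (elem a b c) =
      !![a, -2 * c, -2 * b - 4 * c; b, a, -2 * c; c, b + 2 * c, a + 2 * b + 4 * c] := by
  have e0 : cubicBasis 0 = elem 1 0 0 := by simp [cubicBasis_apply, elem]
  have e1 : cubicBasis 1 = elem 0 1 0 := by simp [cubicBasis_apply, elem]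
  have e2 : cubicBasis 2 = elem 0 0 1 := by simp [cubicBasis_apply, elem]
  ext i j
  rw [Algebra.leftMulMatrix_eq_repr_mul]
  fin_cases i <;> fin_cases j <;>
    simp [e0, e1, e2, elem_mul, cubicBasis_repr] <;> ring

lemma norm_elem (a b c : ℚ) : Algebra.norm ℚ (elem a b c) =
    a * (a * (a + 2 * b + 4 * c) + 2 * c * (b + 2 * c))
      + 2 * c * (b * (a + 2 * b + 4 * c) + 2 * c * c)
      + (-2 * b - 4 * c) * (b * (b + 2 * c) - a * c) := by
  rw [Algebra.norm_eq_matrix_det cubicBasis, leftMulMatrix_elem, Matrix.det_fin_three]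
  simp
  ring

lemma trace_elem (a b c : ℚ) : Algebra.trace ℚ K (elem a b c) = 3 * a + 2 * b + 4 * c := by
  rw [Algebra.trace_eq_matrix_trace cubicBasis, leftMulMatrix_elem, Matrix.trace_fin_three]
  simp
  ring

lemma discr_cubicBasis : Algebra.discr ℚ cubicBasis = -44 := by
  have e0 : cubicBasis 0 = elem 1 0 0 := by simp [cubicBasis_apply, elem]
  have e1 : cubicBasis 1 = elem 0 1 0 := by simp [cubicBasis_apply, elem]
  have e2 : cubicBasis 2 = elem 0 0 1 := by simp [cubicBasis_apply, elem]
  rw [Algebra.discr_def, Matrix.det_fin_three]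
  simp only [Algebra.traceMatrix_apply, Algebra.traceForm_apply, e0, e1, e2, elem_mul, trace_elem]
  norm_num

/-- `ω` as algebraic integer. -/
def omegaInt : NumberField.RingOfIntegers K :=
  ⟨omegaField, ⟨Polynomial.X ^ 3 - Polynomial.C 2 * Polynomial.X ^ 2 + Polynomial.C 2,
    by monicity!, by
      simp only [Polynomial.eval₂_add, Polynomial.eval₂_sub, Polynomial.eval₂_mul,
        Polynomial.eval₂_pow, Polynomial.eval₂_X, Polynomial.eval₂_C, Polynomial.eval₂_ofNat, map_ofNat]
      linear_combination omegaField_rel⟩⟩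

lemma coe_omegaInt : (omegaInt : K) = omegaField := rfl

lemma omegaInt_rel : omegaInt ^ 3 = 2 * omegaInt ^ 2 - 2 := by
  apply NumberField.RingOfIntegers.ext
  push_cast [coe_omegaInt]
  exact omegaField_rel

lemma discr_dvd : ∃ n : ℤ, n ^ 2 * NumberField.discr K = -44 := by
  classical
  set b := NumberField.integralBasis K
  let e := (b.indexEquiv cubicBasis)
  let b' := b.reindex e
  have hP : ∀ i j, ∃ z : ℤ, b'.toMatrix cubicBasis i j = z := by
    intro i j
    have hb : cubicBasis j = algebraMap (NumberField.RingOfIntegers K) K (omegaInt ^ (j : ℕ)) := by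
      rw [cubicBasis_apply, map_pow]; rfl
    refine ⟨(NumberField.RingOfIntegers.basis K).repr (omegaInt ^ (j : ℕ)) (e.symm i), ?_⟩
    rw [Module.Basis.toMatrix_apply, hb, Module.Basis.repr_reindex_apply]
    exact NumberField.integralBasis_repr_apply K (omegaInt ^ (j : ℕ)) (e.symm i)
  choose P hP using hP
  refine ⟨(Matrix.of P).det, ?_⟩
  have hM : b'.toMatrix cubicBasis = (Matrix.of P).map (Int.castRingHom ℚ) := by
    ext i j; simpa using hP i j
  have h := Algebra.discr_of_matrix_vecMul (A := ℚ) (b' : Fin 3 → K) (b'.toMatrix cubicBasis)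
  rw [Module.Basis.toMatrix_map_vecMul, discr_cubicBasis, hM, ← RingHom.mapMatrix_apply, ← RingHom.map_det] at h
  have h2 : Algebra.discr ℚ (b' : Fin 3 → K) = NumberField.discr K := by
    rw [NumberField.coe_discr, Module.Basis.coe_reindex, Algebra.discr_reindex]
  rw [h2] at h
  have h' : (((Matrix.of P).det ^ 2 * NumberField.discr K : ℤ) : ℚ) = ((-44 : ℤ) : ℚ) := by
    rw [Int.cast_mul, Int.cast_pow]; simpa using h.symm
  exact_mod_cast h'

lemma discr_neg_and_le : NumberField.discr K < 0 ∧ |NumberField.discr K| ≤ 44 := by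
  obtain ⟨n, hn⟩ := discr_dvd
  have hneg : NumberField.discr K < 0 := by
    by_contra hh
    nlinarith [sq_nonneg n, not_lt.mp hh]
  refine ⟨hneg, ?_⟩
  rw [abs_of_neg hneg]
  have : 1 ≤ n ^ 2 := by
    rcases eq_or_ne n 0 with rfl | hn0
    · norm_num at hn
    · exact Int.one_le_abs (pow_ne_zero 2 hn0) |>.trans (le_of_eq (abs_sq n))
  nlinarith

lemma nrComplexPlaces_eq_one : NumberField.InfinitePlace.nrComplexPlaces K = 1 := by
  have h1 := NumberField.InfinitePlace.card_add_two_mul_card_eq_rank K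
  have h2 := NumberField.sign_discr K
  rw [finrank_cubicField] at h1
  rw [Int.sign_eq_neg_one_of_neg discr_neg_and_le.1] at h2
  have : NumberField.InfinitePlace.nrComplexPlaces K ≤ 1 := by omega
  interval_cases h : NumberField.InfinitePlace.nrComplexPlaces K <;> simp_all

instance cubicFieldPID : IsPrincipalIdealRing (NumberField.RingOfIntegers K) := by
  apply RingOfIntegers.isPrincipalIdealRing_of_abs_discr_lt
  rw [finrank_cubicField, nrComplexPlaces_eq_one]
  have h : (|NumberField.discr K| : ℝ) ≤ 44 := by exact_mod_cast discr_neg_and_le.2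
  push_cast
  have hpi := Real.pi_gt_three
  have : (3 : ℝ) / 4 < Real.pi / 4 := by linarith
  norm_num [Nat.factorial]
  nlinarith

lemma unit_rank : NumberField.Units.rank K = 1 := by
  have h1 := NumberField.InfinitePlace.card_add_two_mul_card_eq_rank K
  rw [finrank_cubicField, nrComplexPlaces_eq_one] at h1
  rw [NumberField.Units.rank, NumberField.InfinitePlace.card_eq_nrRealPlaces_add_nrComplexPlaces,
    nrComplexPlaces_eq_one]
  omega

end

end FLTAgent.X1Eleven
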