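import Fermat.Agent.X1Eleven.Quartic

/-!
Infinite descent on `W² = e⁶ - 4e²m² + 4m³`, given the 2-descent input.
-/

set_option autoImplicit false

namespace FLTAgent.X1Eleven

/-- The input from the arithmetic of the cubic field `ℚ(ω)`, `ω³ = 2ω² - 2`. -/
def SquareClassInput : Prop :=
  ∀ e m W : ℤ, e ≠ 0 → IsCoprime (e ^ 2) m → W ^ 2 = e ^ 6 - 4 * e ^ 2 * m ^ 2 + 4 * m ^ 3 →
    ∃ g a b c : ℤ, g ≠ 0 ∧
      ((g ^ 2 * e ^ 2 = sqCoord0 a b c ∧ g ^ 2 * (-2 * m) = sqCoord1 a b c ∧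
          g ^ 2 * m = sqCoord2 a b c) ∨
        (g ^ 2 * e ^ 2 = sqCoord0 a b c + 2 * sqCoord2 a b c ∧
          g ^ 2 * (-2 * m) = sqCoord1 a b c - sqCoord0 a b c ∧
          g ^ 2 * m = -sqCoord1 a b c - sqCoord2 a b c))

/-- A point on the covering quartic yields a point on the curve of smaller height. -/
lemma exists_smaller_point {e t r : ℤ} (htr : IsCoprime t r) (hr : r ≠ 0) (ht : t ≠ 0)
    (h : covDen t r = e ^ 2) :
    ∃ r₁ r₂ t₁ t₂ k : ℤ, r = r₁ * r₂ ∧ t = t₁ * t₂ ∧ r₂ ≠ 0 ∧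
      IsCoprime (r₂ ^ 2) (r₁ * t₁) ∧ IsCoprime t₂ r₁ ∧
      r₂ ^ 2 - r₁ * t₁ = k * t₂ ∧ r₂ ^ 3 - t₁ ^ 2 * t₂ = k * r₁ ^ 2 := by
  set s := t ^ 2 + r ^ 2 with hs
  have hdiff : e ^ 2 - s ^ 2 = -4 * r ^ 3 * t := by rw [← h, hs, covDen]; ring
  obtain ⟨A, hA⟩ : ∃ A, e = s + 2 * A := by
    have he2 : Even (e ^ 2 - s ^ 2) := ⟨-2 * r ^ 3 * t, by rw [hdiff]; ring⟩
    have : Even (e - s) := by
      rw [Int.even_sub] at he2 ⊢
      simpa [Int.even_pow] using he2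
    obtain ⟨A, hA⟩ := this
    exact ⟨A, by linarith⟩
  set B := A + s with hB
  have hAB : A * B = -(r ^ 3 * t) := by
    rw [hA] at hdiff; rw [hB]; linarith
  have hco : IsCoprime A B := by
    rw [Int.isCoprime_iff_gcd_eq_one]
    by_contra hne
    obtain ⟨p, hp, hpd⟩ := Nat.exists_prime_and_dvd hne
    have hpP := Nat.prime_iff_prime_int.mp hp
    have h1 : (p : ℤ) ∣ A := (Int.natCast_dvd_natCast.mpr hpd).trans (Int.gcd_dvd_left _ _)
    have h2 : (p : ℤ) ∣ B := (Int.natCast_dvd_natCast.mpr hpd).trans (Int.gcd_dvd_right _ _)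
    have h3 : (p : ℤ) ∣ r ^ 3 * t := by
      have := h1.mul_right B
      rw [hAB] at this
      exact dvd_neg.mp this
    have h4 : (p : ℤ) ∣ t ^ 2 + r ^ 2 := by
      have := dvd_sub h2 h1
      rw [hB] at this
      simpa [hs] using this
    have : (p : ℤ) ∣ t ∧ (p : ℤ) ∣ r := by
      rcases hpP.dvd_or_dvd h3 with h5 | h5
      · have h6 := hpP.dvd_of_dvd_pow h5
        exact ⟨hpP.dvd_of_dvd_pow ((dvd_add_left (dvd_pow h6 two_ne_zero)).mp h4), h6⟩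
      · exact ⟨h5, hpP.dvd_of_dvd_pow ((dvd_add_right (dvd_pow h5 two_ne_zero)).mp h4)⟩
    exact hpP.not_unit (htr.isUnit_of_dvd' this.1 this.2)
  -- `t = t₁ t₂` with `t₁ ∣ A`, `t₂ ∣ B`
  obtain ⟨t₁, t₂, ⟨A', rfl⟩, ⟨B', hB'⟩, rfl⟩ : ∃ t₁ t₂, t₁ ∣ A ∧ t₂ ∣ B ∧ t = t₁ * t₂ :=
    exists_dvd_and_dvd_of_dvd_mul (hAB ▸ dvd_neg.mpr (dvd_mul_left t (r ^ 3)))
  have hprod : A' * B' = (-r) ^ 3 := by
    apply mul_left_cancel₀ ht
    rw [hB'] at hAB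
    linear_combination hAB
  rw [hB'] at hco
  have hco' : IsCoprime A' B' := hco.of_mul_left_right.of_mul_right_right
  have h3odd : Odd 3 := ⟨1, rfl⟩
  obtain ⟨s₁, hs₁⟩ := Int.eq_pow_of_mul_eq_pow_odd_left hco' h3odd hprod
  obtain ⟨s₂, hs₂⟩ := Int.eq_pow_of_mul_eq_pow_odd_right hco' h3odd hprod
  have hr12 : r = -s₁ * s₂ := by
    have : (s₁ * s₂) ^ 3 = (-r) ^ 3 := by rw [← hprod, hs₁, hs₂]; ring
    have := h3odd.strictMono_pow.injective this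
    linarith
  subst hs₁ hs₂
  have hs₂0 : s₂ ≠ 0 := fun h0 => hr (by rw [hr12, h0, mul_zero])
  have hsum : s₂ ^ 3 * t₂ + (-s₁) ^ 3 * t₁ = t₁ ^ 2 * t₂ ^ 2 + (-s₁) ^ 2 * s₂ ^ 2 := by
    have : B = t₁ * s₁ ^ 3 + s := hB
    rw [hB', hs, hr12] at this
    linear_combination this
  have hc1 : IsCoprime (s₂ ^ 3) (s₁ ^ 3) := hco.of_mul_left_right.of_mul_right_right.symm
  have hc2 : IsCoprime (s₂ ^ 3) t₁ := hco.of_mul_left_left.of_mul_right_right.symm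
  have hc3 : IsCoprime t₂ (s₁ ^ 3) := hco.of_mul_left_right.of_mul_right_left.symm
  have hc1' : IsCoprime s₂ s₁ := (IsCoprime.pow_iff (by norm_num) (by norm_num)).mp hc1
  have hc2' : IsCoprime s₂ t₁ := (IsCoprime.pow_left_iff (by norm_num)).mp hc2
  have hc3' : IsCoprime t₂ s₁ := (IsCoprime.pow_right_iff (by norm_num)).mp hc3
  have hdvd : t₂ ∣ (-s₁) ^ 2 * (s₂ ^ 2 - (-s₁) * t₁) :=
    ⟨s₂ ^ 3 - t₁ ^ 2 * t₂, by linear_combination -hsum⟩
  obtain ⟨k, hk⟩ := (hc3'.neg_right.pow_right (n := 2)).dvd_of_dvd_mul_left hdvd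
  have ht₂ : t₂ ≠ 0 := fun h0 => ht (by rw [h0, mul_zero])
  refine ⟨-s₁, s₂, t₁, t₂, k, hr12, rfl, hs₂0,
    (hc1'.neg_right.mul_right hc2').pow_left, hc3'.neg_right, by rw [hk]; ring, ?_⟩
  apply mul_left_cancel₀ ht₂
  linear_combination hsum + s₁ ^ 2 * hk

/-- The only rational points on `W² = e⁶ - 4e²m² + 4m³` are the cuspidal ones. -/
theorem point_eq_cusp (hin : SquareClassInput) {e m W : ℤ} (he : e ≠ 0)
    (hcop : IsCoprime (e ^ 2) m) (hW : W ^ 2 = e ^ 6 - 4 * e ^ 2 * m ^ 2 + 4 * m ^ 3) :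
    m = 0 ∨ m = e ^ 2 := by
  induction hn : (max |m| (e ^ 2)).natAbs using Nat.strong_induction_on
    generalizing e m W with
  | _ n ih =>
  obtain ⟨g, a, b, c, hg, ⟨h0, h1, h2⟩ | ⟨h0, h1, h2⟩⟩ := hin e m W he hcop hW
  swap
  · exact (no_twisted_square hg hcop h0 h1 h2).elim
  obtain ⟨t, r, htr, hP0, hP2⟩ := exists_covering_param hg hcop h0 h1 h2
  by_cases hr : r = 0
  · left; subst hr; simpa [covNum] using hP2.symm
  by_cases ht : t = 0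
  · right; subst ht; rw [← hP0, ← hP2]; simp [covDen, covNum]
  obtain ⟨r₁, r₂, t₁, t₂, k, rfl, rfl, hr₂, hco, hco', hk1, hk2⟩ :=
    exists_smaller_point htr hr ht hP0
  set M := max |t₁ * t₂| |r₁ * r₂| with hMdef
  have hbig : ¬ M ≤ 2 := fun hM => covDen_small he hr ht
    ((le_max_right _ _).trans hM) ((le_max_left _ _).trans hM) hP0
  have hH : 11 * M ^ 4 ≤ 71 * max |m| (e ^ 2) :=
    pow_four_le (by rw [hP0, abs_sq]; exact le_max_right _ _)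
      (by rw [hP2]; exact le_max_left _ _)
  have hM' : max |r₁ * t₁| (r₂ ^ 2) ≤ M ^ 2 := by
    have e1 : |t₁| ≤ |t₁ * t₂| := by
      rw [abs_mul]; exact le_mul_of_one_le_right (abs_nonneg _) (Int.one_le_abs fun h => ht (by simp [h]))
    have e2 : |r₁| ≤ |r₁ * r₂| := by
      rw [abs_mul]; exact le_mul_of_one_le_right (abs_nonneg _) (Int.one_le_abs hr₂)
    have e3 : |r₂| ≤ |r₁ * r₂| := by
      rw [abs_mul]; exact le_mul_of_one_le_left (abs_nonneg _) (Int.one_le_abs fun h => hr (by simp [h]))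
    have f1 : |t₁| ≤ M := e1.trans (le_max_left _ _)
    have f2 : |r₁| ≤ M := e2.trans (le_max_right _ _)
    have f3 : |r₂| ≤ M := e3.trans (le_max_right _ _)
    refine max_le ?_ ?_
    · rw [abs_mul, sq]; gcongr
    · rw [← sq_abs r₂]; gcongr
  have hlt : max |r₁ * t₁| (r₂ ^ 2) < max |m| (e ^ 2) := by
    have h9 : 9 ≤ M ^ 2 := by nlinarith
    have h99 : 9 * M ^ 2 ≤ M ^ 4 := by
      calc 9 * M ^ 2 ≤ M ^ 2 * M ^ 2 := by gcongr
        _ = M ^ 4 := by ring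
    linarith
  have hnew : r₁ * t₁ = 0 ∨ r₁ * t₁ = r₂ ^ 2 :=
    ih (max |r₁ * t₁| (r₂ ^ 2)).natAbs (by
        rw [← hn]
        exact Int.natAbs_lt_natAbs_of_nonneg_of_lt
          (le_max_of_le_right (sq_nonneg _)) hlt)
      (W := r₂ ^ 3 - 2 * t₁ ^ 2 * t₂) hr₂ hco
      (by linear_combination (-4 * t₁ ^ 2 * t₂) * hk2 + (4 * r₁ ^ 2 * t₁ ^ 2) * hk1) rfl
  exfalso
  rcases hnew with h | h
  · rcases mul_eq_zero.mp h with h | h
    · exact hr (by simp [h])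
    · exact ht (by simp [h])
  · have hu : IsUnit (r₂ ^ 2) := hco.isUnit_of_dvd' dvd_rfl (by rw [h])
    have hu₂ : IsUnit r₂ := (isUnit_pow_iff two_ne_zero).mp hu
    have hu₁ : IsUnit (r₁ * t₁) := h ▸ hu
    have ht₂ : t₂ ≠ 0 := fun h => ht (by simp [h])
    have hk0 : k = 0 := by
      rw [h] at hk1
      exact (mul_eq_zero.mp (hk1.symm.trans (sub_self _))).resolve_right ht₂
    rw [hk0, zero_mul, sub_eq_zero] at hk2
    have hu' : IsUnit t₂ :=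
      isUnit_of_dvd_unit ⟨t₁ ^ 2, by rw [hk2]; ring⟩ (hu₂.pow 3)
    apply hbig
    have a1 := Int.isUnit_iff_abs_eq.mp hu'
    have a2 := Int.isUnit_iff_abs_eq.mp hu₂
    have a3 := Int.isUnit_iff_abs_eq.mp (isUnit_of_mul_isUnit_left hu₁)
    have a4 := Int.isUnit_iff_abs_eq.mp (isUnit_of_mul_isUnit_right hu₁)
    rw [hMdef, abs_mul, abs_mul, a1, a2, a3, a4]; norm_num

end FLTAgent.X1Eleven
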