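import Fermat.Agent.X1Eleven.SquareClass
import Fermat.Agent.Torsion.MulFormula

/-!
No elliptic curve over `ℚ` has a rational point of order `11`.
-/

set_option autoImplicit false

namespace FLTAgent.X1Eleven

/-- The rational points of `z² = x⁴ + 2x² - 4x + 1` have `x ∈ {0, 1}`. -/
theorem covering_rational_point {x z : ℚ} (h : z ^ 2 = x ^ 4 + 2 * x ^ 2 - 4 * x + 1) :
    x = 0 ∨ x = 1 := by
  obtain ⟨t, ht'⟩ : ∃ t, t = x.num := ⟨_, rfl⟩
  obtain ⟨r, hr'⟩ : ∃ r : ℤ, r = x.den := ⟨_, rfl⟩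
  have hr : r ≠ 0 := by rw [hr']; exact_mod_cast x.den_nz
  have htr : IsCoprime t r := by
    rw [Int.isCoprime_iff_gcd_eq_one, ht', hr']; exact x.reduced
  have hrQ : (r : ℚ) ≠ 0 := by exact_mod_cast hr
  have hx : x = (t : ℚ) / r := by rw [ht', hr']; push_cast; exact x.num_div_den.symm
  obtain ⟨e, he⟩ : IsSquare (covDen t r) := by
    rw [← Rat.isSquare_intCast_iff]
    refine ⟨z * (r : ℚ) ^ 2, ?_⟩
    rw [hx] at h
    field_simp at h
    unfold covDen
    push_cast
    linear_combination -h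
  rw [← sq] at he
  by_cases ht : t = 0
  · left; rw [hx, ht]; simp
  right
  obtain ⟨r₁, r₂, t₁, t₂, k, rfl, rfl, hr₂, hco, -, hk1, hk2⟩ := exists_smaller_point htr hr ht he
  rcases integral_point_eq_cusp (W := r₂ ^ 3 - 2 * t₁ ^ 2 * t₂) hr₂ hco
      (by linear_combination (-4 * t₁ ^ 2 * t₂) * hk2 + (4 * r₁ ^ 2 * t₁ ^ 2) * hk1) with h' | h'
  · rcases mul_eq_zero.mp h' with h'' | h''
    · exact absurd (by simp [h'']) hr
    · exact absurd (by simp [h'']) ht
  · have hu : IsUnit (r₂ ^ 2) := hco.isUnit_of_dvd' dvd_rfl (by rw [h'])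
    have hu₂ : IsUnit r₂ := (isUnit_pow_iff two_ne_zero).mp hu
    have hu₁ : IsUnit (r₁ * t₁) := h' ▸ hu
    have ht₂ : t₂ ≠ 0 := fun h => ht (by simp [h])
    have hk0 : k = 0 := by
      rw [h'] at hk1
      exact (mul_eq_zero.mp (hk1.symm.trans (sub_self _))).resolve_right ht₂
    rw [hk0, zero_mul, sub_eq_zero] at hk2
    have hu' : IsUnit t₂ := isUnit_of_dvd_unit ⟨t₁ ^ 2, by rw [hk2]; ring⟩ (hu₂.pow 3)
    have hR : IsUnit (r₁ * r₂) := (isUnit_of_mul_isUnit_left hu₁).mul hu₂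
    have hT : IsUnit (t₁ * t₂) := (isUnit_of_mul_isUnit_right hu₁).mul hu'
    rcases Int.isUnit_iff.mp hR with hR | hR <;> rcases Int.isUnit_iff.mp hT with hT | hT <;>
      rw [hR, hT] at he hx <;> first
      | (rw [hx]; norm_num; done)
      | (exfalso
         have h8 : e ^ 2 = 8 := by rw [← he]; rfl
         have h9 : -3 < e := by nlinarith
         have h10 : e < 3 := by nlinarith
         interval_cases e <;> norm_num at h8)

/-- The elliptic divisibility sequence cannot have a zero exactly at `11` over `ℚ`. -/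
theorem normEDS_eleven_ne_zero {p q r : ℚ} (hp : p ≠ 0) (hq : q ≠ 0) (hr : r ≠ 0)
    (h5 : normEDS p q r 5 ≠ 0) : normEDS p q r 11 ≠ 0 := by
  intro h11
  have e5 : normEDS p q r 5 = r * p ^ 4 - q ^ 3 := by
    have h := normEDS_odd p q r 2
    norm_num at h
    rw [h]; ring
  have e6 : normEDS p q r 6 * p = q * ((r * p ^ 4 - q ^ 3) * p ^ 2 - r ^ 2 * p ^ 2) := by
    have h := normEDS_even p q r 3
    norm_num [e5] at h
    rw [h]; ring
  have e7 : normEDS p q r 7 = (r * p ^ 4 - q ^ 3) * q ^ 3 - r ^ 3 * p ^ 4 := by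
    have h := normEDS_odd p q r 3
    norm_num [e5] at h
    rw [h]; ring
  have e11 : normEDS p q r 11 =
      normEDS p q r 7 * normEDS p q r 5 ^ 3 - r * p * normEDS p q r 6 ^ 3 := by
    have h := normEDS_odd p q r 5
    norm_num at h
    rw [h]
  rw [e5] at h5
  have e11' : p ^ 2 * normEDS p q r 11 =
      p ^ 2 * (((r * p ^ 4 - q ^ 3) * q ^ 3 - r ^ 3 * p ^ 4) * (r * p ^ 4 - q ^ 3) ^ 3)
        - r * q ^ 3 * ((r * p ^ 4 - q ^ 3) * p ^ 2 - r ^ 2 * p ^ 2) ^ 3 := by
    rw [e11, e5, e7]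
    linear_combination (-r * ((normEDS p q r 6 * p) ^ 2
      + normEDS p q r 6 * p * (q * ((r * p ^ 4 - q ^ 3) * p ^ 2 - r ^ 2 * p ^ 2))
      + (q * ((r * p ^ 4 - q ^ 3) * p ^ 2 - r ^ 2 * p ^ 2)) ^ 2)) * e6
  rw [h11, mul_zero] at e11'
  -- Tate normal form parameters
  set b := -q ^ 3 / p ^ 8 with hb
  set c := -r / p ^ 4 with hc
  have hbc : b - c ≠ 0 := by
    rw [hb, hc]; intro h
    apply h5; field_simp at h; linear_combination h
  have hc0 : c ≠ 0 := by rw [hc]; simp [hp, hr]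
  have e11'' : ((r * p ^ 4 - q ^ 3) * q ^ 3 - r ^ 3 * p ^ 4) * (r * p ^ 4 - q ^ 3) ^ 3
      - r * q ^ 3 * p ^ 4 * (r * p ^ 4 - q ^ 3 - r ^ 2) ^ 3 = 0 := by
    apply mul_left_cancel₀ (pow_ne_zero 2 hp)
    linear_combination -e11'
  have hF : (c ^ 3 - b ^ 2 + b * c) * (b - c) ^ 3 - b * c * (b - c - c ^ 2) ^ 3 = 0 := by
    rw [hb, hc]; field_simp; linear_combination e11''
  obtain ⟨R, hR⟩ : ∃ R, b = c * R := ⟨b / c, by field_simp⟩
  have hR1 : R - 1 ≠ 0 := fun h => hbc (by rw [hR]; linear_combination c * h)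
  obtain ⟨S, hS⟩ : ∃ S, c = S * (R - 1) := ⟨c / (R - 1), by field_simp⟩
  have hS0 : S ≠ 0 := fun h => hc0 (by rw [hS, h, zero_mul])
  have hG : (R - 1) * (S - R) - R * (1 - S) ^ 3 = 0 := by
    have : S ^ 5 * (R - 1) ^ 8 * ((R - 1) * (S - R) - R * (1 - S) ^ 3) = 0 := by
      rw [hR, hS] at hF; linear_combination hF
    simpa [hS0, hR1] using this
  by_cases hx : 1 - S = 0
  · have : (R - 1) * (R - 1) = 0 := by
      have hS1 : S = 1 := by linarith
      rw [hS1] at hG; linear_combination -hG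
    exact hR1 (mul_self_eq_zero.mp this)
  obtain ⟨v, hv⟩ : ∃ v, R = 1 + (1 - S) * v := ⟨(R - 1) / (1 - S), by field_simp; ring⟩
  have hq2 : v ^ 2 + v * (1 + (1 - S) ^ 2) + (1 - S) = 0 := by
    apply mul_left_cancel₀ (pow_ne_zero 2 hx)
    rw [hv] at hG
    linear_combination -hG
  rcases covering_rational_point (x := 1 - S) (z := 2 * v + 1 + (1 - S) ^ 2)
      (by linear_combination 4 * hq2) with h | h
  · exact hx h
  · exact hS0 (by linarith)

open WeierstrassCurve in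
/-- No elliptic curve over `ℚ` has a rational point of order `11`. -/
theorem addOrderOf_ne_eleven (W : WeierstrassCurve.Affine ℚ) (R : W.Point) :
    addOrderOf R ≠ 11 := by
  intro hR
  cases R with
  | zero => rw [← Affine.Point.zero_def, addOrderOf_zero] at hR; omega
  | some x y h =>
    have key : ∀ n : ℕ, 0 < n → n < 11 → Torsion.psiVal W x y n ≠ 0 := by
      intro n hn hn' h0
      have := (Torsion.zsmul_some_eq_zero_iff_psiVal h n).mpr h0
      rw [natCast_zsmul] at this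
      have := Nat.le_of_dvd hn (hR ▸ addOrderOf_dvd_of_nsmul_eq_zero this)
      omega
    have h11 : Torsion.psiVal W x y 11 = 0 := by
      rw [← Torsion.zsmul_some_eq_zero_iff_psiVal h, show (11 : ℤ) = ((11 : ℕ) : ℤ) from rfl,
        natCast_zsmul, ← hR]
      exact addOrderOf_nsmul_eq_zero _
    have k2 := key 2 (by norm_num) (by norm_num)
    have k3 := key 3 (by norm_num) (by norm_num)
    have k4 := key 4 (by norm_num) (by norm_num)
    have k5 := key 5 (by norm_num) (by norm_num)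
    simp only [Torsion.psiVal, Nat.cast_ofNat, normEDS_two, normEDS_three, normEDS_four]
      at k2 k3 k4 k5 h11
    exact normEDS_eleven_ne_zero k2 k3 (left_ne_zero_of_mul k4) k5 h11

end FLTAgent.X1Eleven
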