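import Mathlib

/-!
Elementary part of the 2-descent on `y² + y = x³ - x²` (the curve `X₁(11)`).
-/

set_option autoImplicit false

namespace FLTAgent.X1Eleven

/-- Coordinates of `(a + bω + cω²)²` in the basis `1, ω, ω²`, where `ω³ = 2ω² - 2`. -/
def sqCoord0 (a b c : ℤ) : ℤ := a ^ 2 - 4 * b * c - 4 * c ^ 2

/-- See `sqCoord0`. -/
def sqCoord1 (a b c : ℤ) : ℤ := 2 * a * b - 2 * c ^ 2

/-- See `sqCoord0`. -/
def sqCoord2 (a b c : ℤ) : ℤ := b ^ 2 + 2 * a * c + 4 * b * c + 4 * c ^ 2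

/-- The quartic form giving the denominator in the 2-covering. -/
def covDen (t r : ℤ) : ℤ := t ^ 4 + 2 * r ^ 2 * t ^ 2 - 4 * r ^ 3 * t + r ^ 4

/-- The quartic form giving the numerator in the 2-covering. -/
def covNum (t r : ℤ) : ℤ := r ^ 4 + 2 * r * t ^ 3 - 2 * r ^ 3 * t

lemma abs_cubicForm_le (M : ℤ) {t r : ℤ} (ht : |t| ≤ M) (hr : |r| ≤ M) (a b c d : ℤ) :
    |a * t ^ 3 + b * t ^ 2 * r + c * t * r ^ 2 + d * r ^ 3|
      ≤ (|a| + |b| + |c| + |d|) * M ^ 3 := by
  have hM : 0 ≤ M := le_trans (abs_nonneg t) ht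
  have h1 : |t| ^ 3 ≤ M ^ 3 := by gcongr
  have h2 : |t| ^ 2 * |r| ≤ M ^ 3 := by
    calc |t| ^ 2 * |r| ≤ M ^ 2 * M := by gcongr
      _ = M ^ 3 := by ring
  have h3 : |t| * |r| ^ 2 ≤ M ^ 3 := by
    calc |t| * |r| ^ 2 ≤ M * M ^ 2 := by gcongr
      _ = M ^ 3 := by ring
  have h4 : |r| ^ 3 ≤ M ^ 3 := by gcongr
  calc |a * t ^ 3 + b * t ^ 2 * r + c * t * r ^ 2 + d * r ^ 3|
      ≤ |a * t ^ 3| + |b * t ^ 2 * r| + |c * t * r ^ 2| + |d * r ^ 3| := by
        refine le_trans (abs_add_le _ _) ?_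
        gcongr
        refine le_trans (abs_add_le _ _) ?_
        gcongr
        exact abs_add_le _ _
    _ = |a| * |t| ^ 3 + |b| * (|t| ^ 2 * |r|) + |c| * (|t| * |r| ^ 2) + |d| * |r| ^ 3 := by
        simp only [abs_mul, abs_pow]; ring
    _ ≤ |a| * M ^ 3 + |b| * M ^ 3 + |c| * M ^ 3 + |d| * M ^ 3 := by gcongr
    _ = (|a| + |b| + |c| + |d|) * M ^ 3 := by ring

lemma bezout_t (t r : ℤ) :
    (11 * t ^ 3 + (-2) * t ^ 2 * r + (-10) * t * r ^ 2 + 6 * r ^ 3) * covDen t r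
      + (1 * t ^ 3 + (-6) * t ^ 2 * r + 22 * t * r ^ 2 + (-6) * r ^ 3) * covNum t r
      = 11 * t ^ 7 := by
  unfold covDen covNum; ring

lemma bezout_r (t r : ℤ) :
    (0 * t ^ 3 + 12 * t ^ 2 * r + 0 * t * r ^ 2 + (-16) * r ^ 3) * covDen t r
      + ((-6) * t ^ 3 + 0 * t ^ 2 * r + (-10) * t * r ^ 2 + 27 * r ^ 3) * covNum t r
      = 11 * r ^ 7 := by
  unfold covDen covNum; ring

/-- Lower bound for the height of the image of `(t : r)`. -/
lemma pow_four_le {t r H : ℤ} (h0 : |covDen t r| ≤ H) (h2 : |covNum t r| ≤ H) :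
    11 * (max |t| |r|) ^ 4 ≤ 71 * H := by
  set M := max |t| |r| with hMdef
  have ht : |t| ≤ M := le_max_left _ _
  have hr : |r| ≤ M := le_max_right _ _
  have hH : 0 ≤ H := le_trans (abs_nonneg _) h0
  have hM : 0 ≤ M := le_trans (abs_nonneg _) ht
  have key : ∀ x A B C₁ C₂ : ℤ, A * covDen t r + B * covNum t r = 11 * x ^ 7 →
      |A| ≤ C₁ * M ^ 3 → |B| ≤ C₂ * M ^ 3 → C₁ + C₂ ≤ 71 →
      11 * |x| ^ 7 ≤ 71 * M ^ 3 * H := by
    intro x A B C₁ C₂ he hA hB hC
    have h' : |11 * x ^ 7| ≤ |A| * |covDen t r| + |B| * |covNum t r| := by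
      rw [← he, ← abs_mul, ← abs_mul]; exact abs_add_le _ _
    rw [abs_mul, abs_pow] at h'
    have e11 : |(11 : ℤ)| = 11 := by norm_num
    rw [e11] at h'
    have hA' : |A| * |covDen t r| ≤ C₁ * M ^ 3 * H :=
      mul_le_mul hA h0 (abs_nonneg _) (le_trans (abs_nonneg _) hA)
    have hB' : |B| * |covNum t r| ≤ C₂ * M ^ 3 * H :=
      mul_le_mul hB h2 (abs_nonneg _) (le_trans (abs_nonneg _) hB)
    have hC' : (C₁ + C₂) * (M ^ 3 * H) ≤ 71 * (M ^ 3 * H) :=
      mul_le_mul_of_nonneg_right hC (by positivity)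
    linarith
  have kt := key t _ _ _ _ (bezout_t t r) (abs_cubicForm_le M ht hr _ _ _ _)
    (abs_cubicForm_le M ht hr _ _ _ _) (by norm_num)
  have kr := key r _ _ _ _ (bezout_r t r) (abs_cubicForm_le M ht hr _ _ _ _)
    (abs_cubicForm_le M ht hr _ _ _ _) (by norm_num)
  have kM : 11 * M ^ 7 ≤ 71 * M ^ 3 * H := by
    rcases max_choice |t| |r| with h | h <;> rw [hMdef, h] <;> rw [hMdef, h] at kt kr <;> assumption
  rcases eq_or_lt_of_le hM with hM0 | hMpos
  · rw [← hM0]; norm_num; omega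
  · have : M ^ 3 * (11 * M ^ 4) ≤ M ^ 3 * (71 * H) := by linarith
    exact le_of_mul_le_mul_left this (by positivity)

/-- No small exceptional values of the covering quartic are squares. -/
lemma covDen_small {t r e : ℤ} (he : e ≠ 0) (hr : r ≠ 0) (ht : t ≠ 0)
    (hr2 : |r| ≤ 2) (ht2 : |t| ≤ 2) : covDen t r ≠ e ^ 2 := by
  intro h
  obtain ⟨h1, h2⟩ := abs_le.mp hr2
  obtain ⟨h3, h4⟩ := abs_le.mp ht2
  unfold covDen at h
  have hb : ∀ n : ℤ, e ^ 2 = n → n ≤ 128 →
      n = 1 ∨ n = 4 ∨ n = 9 ∨ n = 16 ∨ n = 25 ∨ n = 36 ∨ n = 49 ∨ n = 64 ∨ n = 81 ∨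
        n = 100 ∨ n = 121 := by
    intro n hn hle
    have h5 : -12 < e := by nlinarith
    have h6 : e < 12 := by nlinarith
    subst hn
    interval_cases e <;> revert he <;> norm_num
  have := hb _ h.symm
  interval_cases r <;> interval_cases t <;> revert h hr ht this <;>
    norm_num [he, eq_comm (a := (0:ℤ))]

/-- The square class `u = 1 - ω` does not occur. -/
lemma no_twisted_square {e m g a b c : ℤ} (hg : g ≠ 0)
    (hcop : IsCoprime (e ^ 2) m)
    (h0 : g ^ 2 * e ^ 2 = sqCoord0 a b c + 2 * sqCoord2 a b c)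
    (h1 : g ^ 2 * (-2 * m) = sqCoord1 a b c - sqCoord0 a b c)
    (h2 : g ^ 2 * m = -sqCoord1 a b c - sqCoord2 a b c) : False := by
  induction hn : g.natAbs using Nat.strong_induction_on generalizing g a b c with
  | _ n ih =>
  simp only [sqCoord0, sqCoord1, sqCoord2] at h0 h1 h2
  have ha : Even a := by
    have : Even (a ^ 2) := ⟨a * b - c ^ 2 + g ^ 2 * m + 2 * b * c + 2 * c ^ 2, by linarith⟩
    exact (Int.even_pow.mp this).1
  obtain ⟨a', rfl⟩ := ha
  have hge : Even (g * e) := by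
    have : Even ((g * e) ^ 2) := ⟨-((a' + a') * b - c ^ 2), by linarith⟩
    exact (Int.even_pow.mp this).1
  obtain ⟨s, hs⟩ := hge
  have hc : Even c := by
    have hE : (g * e) ^ 2 = -2 * ((a' + a') * b - c ^ 2) := by linarith
    rw [hs] at hE
    have : Even (c ^ 2) := ⟨s ^ 2 + a' * b, by linarith⟩
    exact (Int.even_pow.mp this).1
  obtain ⟨c', rfl⟩ := hc
  have hb : Even b := by
    have : Even (b ^ 2) :=
      ⟨-(a' ^ 2 + a' * b + 2 * b * c' + 2 * c' ^ 2 + 4 * a' * c'), by linarith⟩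
    exact (Int.even_pow.mp this).1
  obtain ⟨b', rfl⟩ := hb
  have hg2 : Even g := by
    have d1 : (4 : ℤ) ∣ g ^ 2 * e ^ 2 :=
      ⟨a'^2 - 4*b'*c' - 4*c'^2 + 2*(b'^2 + 2*a'*c' + 4*b'*c' + 4*c'^2), by rw [h0]; ring⟩
    have d2 : (4 : ℤ) ∣ g ^ 2 * m :=
      ⟨-(2*a'*b' - 2*c'^2) - (b'^2 + 2*a'*c' + 4*b'*c' + 4*c'^2), by rw [h2]; ring⟩
    obtain ⟨x, y, hxy⟩ := hcop
    have d3 : (2 : ℤ) ^ 2 ∣ g ^ 2 := by
      have : g ^ 2 = x * (g ^ 2 * e ^ 2) + y * (g ^ 2 * m) := by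
        linear_combination -(g ^ 2) * hxy
      rw [this]; norm_num
      exact dvd_add (dvd_mul_of_dvd_right d1 _) (dvd_mul_of_dvd_right d2 _)
    exact even_iff_two_dvd.mpr ((Int.pow_dvd_pow_iff two_ne_zero).mp d3)
  obtain ⟨g', rfl⟩ := hg2
  exact ih g'.natAbs (by omega) (g := g') (a := a') (b := b') (c := c') (by omega)
    (by simp only [sqCoord0, sqCoord1, sqCoord2]; linarith)
    (by simp only [sqCoord0, sqCoord1, sqCoord2]; linarith)
    (by simp only [sqCoord0, sqCoord1, sqCoord2]; linarith) rfl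

/-- Parametrisation of `γ` from `γ² ∈ ℤ + ℤ(ω² - 2ω)`. -/
lemma exists_covering_param {e m g a b c : ℤ} (hg : g ≠ 0) (hcop : IsCoprime (e ^ 2) m)
    (h0 : g ^ 2 * e ^ 2 = sqCoord0 a b c) (h1 : g ^ 2 * (-2 * m) = sqCoord1 a b c)
    (h2 : g ^ 2 * m = sqCoord2 a b c) :
    ∃ t r : ℤ, IsCoprime t r ∧ covDen t r = e ^ 2 ∧ covNum t r = m := by
  -- reduce to a primitive triple
  induction hn : g.natAbs using Nat.strong_induction_on generalizing g a b c with
  | _ n ih =>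
  by_cases hprim : ∀ p : ℕ, p.Prime → (p : ℤ) ∣ a → (p : ℤ) ∣ b → (p : ℤ) ∣ c → False
  · set d := b + 2 * c with hd
    simp only [sqCoord0, sqCoord1, sqCoord2] at h0 h1 h2
    have hmul : d * (a + d) = c ^ 2 := by rw [hd]; linarith
    have hco : IsCoprime d (a + d) := by
      rw [Int.isCoprime_iff_gcd_eq_one]
      by_contra hne
      obtain ⟨p, hp, hpd⟩ := Nat.exists_prime_and_dvd hne
      have hd1 : (p : ℤ) ∣ d := (Int.natCast_dvd_natCast.mpr hpd).trans (Int.gcd_dvd_left _ _)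
      have hd2 : (p : ℤ) ∣ a + d :=
        (Int.natCast_dvd_natCast.mpr hpd).trans (Int.gcd_dvd_right _ _)
      have hpc : (p : ℤ) ∣ c :=
        (Nat.prime_iff_prime_int.mp hp).dvd_of_dvd_pow (hmul ▸ hd1.mul_right _)
      refine hprim p hp (by simpa using dvd_sub hd2 hd1) ?_ hpc
      have : b = d - 2 * c := by rw [hd]; ring
      rw [this]; exact dvd_sub hd1 (hpc.mul_left 2)
    -- both factors are squares up to a common sign
    have hsq : ∀ x y : ℤ, IsCoprime x y → x * y = c ^ 2 → ∃ r : ℤ, x = r ^ 2 ∨ x = -r ^ 2 :=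
      fun x y hxy h => Int.sq_of_gcd_eq_one (Int.isCoprime_iff_gcd_eq_one.mp hxy) h
    obtain ⟨r, hr⟩ := hsq d (a + d) hco hmul
    obtain ⟨t₀, ht⟩ := hsq (a + d) d hco.symm (by rw [mul_comm]; exact hmul)
    obtain ⟨ε, t, hε, hd', had, hc'⟩ : ∃ ε t : ℤ, ε ^ 2 = 1 ∧ d = ε * r ^ 2 ∧
        a + d = ε * t ^ 2 ∧ c = ε * (r * t) := by
      have main : ∀ ε : ℤ, ε ^ 2 = 1 → d = ε * r ^ 2 → a + d = ε * t₀ ^ 2 →
          ∃ ε' t : ℤ, ε' ^ 2 = 1 ∧ d = ε' * r ^ 2 ∧
            a + d = ε' * t ^ 2 ∧ c = ε' * (r * t) := by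
        intro ε hε h1' h2'
        have : c ^ 2 = (ε * (r * t₀)) ^ 2 := by rw [← hmul, h2', h1']; ring
        rcases sq_eq_sq_iff_eq_or_eq_neg.mp this with h | h
        · exact ⟨ε, t₀, hε, h1', h2', h⟩
        · exact ⟨ε, -t₀, hε, h1', by rw [h2']; ring, by rw [h]; ring⟩
      by_cases hd0 : d = 0
      · have hr0 : r = 0 := by rw [hd0] at hr; rcases hr with h | h <;> exact (pow_eq_zero_iff two_ne_zero).mp (by linarith)
        rcases ht with h | h
        · exact main 1 (by norm_num) (by simp [hd0, hr0]) (by simpa using h)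
        · exact main (-1) (by norm_num) (by simp [hd0, hr0]) (by simpa using h)
      by_cases ht0 : a + d = 0
      · have : t₀ = 0 := by rw [ht0] at ht; rcases ht with h | h <;> exact (pow_eq_zero_iff two_ne_zero).mp (by linarith)
        rcases hr with h | h
        · exact main 1 (by norm_num) (by simpa using h) (by simp [ht0, this])
        · exact main (-1) (by norm_num) (by simpa using h) (by simp [ht0, this])
      have hpos : 0 < d * (a + d) := by
        have := mul_ne_zero hd0 ht0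
        rw [hmul] at this ⊢
        positivity
      rcases hr with h | h <;> rcases ht with h' | h'
      · exact main 1 (by norm_num) (by simpa using h) (by simpa using h')
      · exfalso; rw [h', h] at hpos; nlinarith [sq_nonneg r, sq_nonneg t₀, sq_nonneg (r * t₀)]
      · exfalso; rw [h', h] at hpos; nlinarith [sq_nonneg r, sq_nonneg t₀, sq_nonneg (r * t₀)]
      · exact main (-1) (by norm_num) (by simpa using h) (by simpa using h')
    have hb' : b = ε * (r ^ 2 - 2 * r * t) := by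
      have : b = d - 2 * c := by rw [hd]; ring
      rw [this, hd', hc']; ring
    have ha' : a = ε * (t ^ 2 - r ^ 2) := by linarith
    have htr : IsCoprime t r := by
      rw [Int.isCoprime_iff_gcd_eq_one]
      by_contra hne
      obtain ⟨p, hp, hpd⟩ := Nat.exists_prime_and_dvd hne
      have h1p : (p : ℤ) ∣ t := (Int.natCast_dvd_natCast.mpr hpd).trans (Int.gcd_dvd_left _ _)
      have h2p : (p : ℤ) ∣ r := (Int.natCast_dvd_natCast.mpr hpd).trans (Int.gcd_dvd_right _ _)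
      refine hprim p hp ?_ ?_ ?_
      · rw [ha']; exact (dvd_sub (dvd_pow h1p two_ne_zero) (dvd_pow h2p two_ne_zero)).mul_left _
      · rw [hb']; exact (dvd_sub (dvd_pow h2p two_ne_zero) (h1p.mul_left _)).mul_left _
      · rw [hc']; exact (h1p.mul_left _).mul_left _
    have hP0 : covDen t r = g ^ 2 * e ^ 2 := by
      rw [h0, ha', hb', hc', covDen]
      linear_combination -(t^4 + 2*r^2*t^2 - 4*r^3*t + r^4) * hε
    have hP2 : covNum t r = g ^ 2 * m := by
      rw [h2, ha', hb', hc', covNum]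
      linear_combination -(r^4 + 2*r*t^3 - 2*r^3*t) * hε
    have hg1 : g ^ 2 = 1 := by
      have d0 : g ^ 2 ∣ covDen t r := hP0 ▸ dvd_mul_right _ _
      have d2 : g ^ 2 ∣ covNum t r := hP2 ▸ dvd_mul_right _ _
      have dt : g ^ 2 ∣ 11 * t ^ 7 := bezout_t t r ▸ dvd_add (d0.mul_left _) (d2.mul_left _)
      have dr : g ^ 2 ∣ 11 * r ^ 7 := bezout_r t r ▸ dvd_add (d0.mul_left _) (d2.mul_left _)
      obtain ⟨x, y, hxy⟩ := (htr.pow (m := 7) (n := 7))
      have d11 : g ^ 2 ∣ 11 := by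
        have : (11 : ℤ) = x * (11 * t ^ 7) + y * (11 * r ^ 7) := by linear_combination -11 * hxy
        rw [this]; exact dvd_add (dt.mul_left _) (dr.mul_left _)
      have d11' : g.natAbs ^ 2 ∣ 11 := by
        have := Int.natAbs_dvd_natAbs.mpr d11
        rwa [Int.natAbs_pow] at this
      rcases (Nat.prime_def.mp (by norm_num : Nat.Prime 11)).2 _ d11' with h | h
      · have : g.natAbs = 1 := by simpa using h
        rcases Int.natAbs_eq g with h' | h' <;> rw [h', this] <;> norm_num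
      · exfalso
        have : g.natAbs ≤ 3 := by nlinarith
        interval_cases g.natAbs <;> norm_num at h
    exact ⟨t, r, htr, by rw [hP0, hg1, one_mul], by rw [hP2, hg1, one_mul]⟩
  · push Not at hprim
    obtain ⟨p, hp, hpa, hpb, hpc, -⟩ := hprim
    obtain ⟨a', rfl⟩ := hpa
    obtain ⟨b', rfl⟩ := hpb
    obtain ⟨c', rfl⟩ := hpc
    have hpg : (p : ℤ) ∣ g := by
      refine (Int.pow_dvd_pow_iff two_ne_zero).mp ?_
      obtain ⟨x, y, hxy⟩ := hcop
      have : g ^ 2 = x * (g ^ 2 * e ^ 2) + y * (g ^ 2 * m) := by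
        linear_combination -(g ^ 2) * hxy
      rw [this, h0, h2]
      exact dvd_add (dvd_mul_of_dvd_right ⟨sqCoord0 a' b' c', by unfold sqCoord0; ring⟩ _)
        (dvd_mul_of_dvd_right ⟨sqCoord2 a' b' c', by unfold sqCoord2; ring⟩ _)
    obtain ⟨g', rfl⟩ := hpg
    have hp0 : (p : ℤ) ^ 2 ≠ 0 := pow_ne_zero 2 (by exact_mod_cast hp.ne_zero)
    have hg' : g' ≠ 0 := fun h => hg (by simp [h])
    refine ih g'.natAbs ?_ (g := g') (a := a') (b := b') (c := c') hg' ?_ ?_ ?_ rfl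
    · rw [← hn, Int.natAbs_mul]
      exact lt_mul_of_one_lt_left (Int.natAbs_pos.mpr hg') (by simpa using hp.one_lt)
    · apply mul_left_cancel₀ hp0
      simp only [sqCoord0] at h0 ⊢
      linear_combination h0
    · apply mul_left_cancel₀ hp0
      simp only [sqCoord1] at h1 ⊢
      linear_combination h1
    · apply mul_left_cancel₀ hp0
      simp only [sqCoord2] at h2 ⊢
      linear_combination h2

end FLTAgent.X1Eleven
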