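import Fermat.Agent.X1Eleven.CubicField
import Fermat.Agent.X1Eleven.Descent

/-!
The 2-descent input: `e² + m(ω² - 2ω)` is a square or `(1 - ω)` times a square in `ℚ(ω)`.
-/

set_option autoImplicit false

namespace FLTAgent.X1Eleven

open NumberField

noncomputable section

local notation "K" => CubicField
local notation "𝒪" => NumberField.RingOfIntegers CubicField
local notation "w" => omegaInt

lemma coe_elemInt (a b c : ℤ) :
    (((a : 𝒪) + (b : 𝒪) * w + (c : 𝒪) * w ^ 2 : 𝒪) : K) = elem a b c := by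
  push_cast [coe_omegaInt]
  simp [elem]

lemma norm_elemInt (a b c : ℤ) :
    Algebra.norm ℤ ((a : 𝒪) + (b : 𝒪) * w + (c : 𝒪) * w ^ 2) =
      a * (a * (a + 2 * b + 4 * c) + 2 * c * (b + 2 * c))
        + 2 * c * (b * (a + 2 * b + 4 * c) + 2 * c * c)
        + (-2 * b - 4 * c) * (b * (b + 2 * c) - a * c) := by
  have h := Algebra.coe_norm_int ((a : 𝒪) + (b : 𝒪) * w + (c : 𝒪) * w ^ 2)
  rw [coe_elemInt, norm_elem] at h
  exact_mod_cast h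

lemma isUnit_of_norm {x : 𝒪} (h : Algebra.norm ℤ x = 1 ∨ Algebra.norm ℤ x = -1) : IsUnit x := by
  rw [NumberField.isUnit_iff_norm, RingOfIntegers.coe_norm, ← Algebra.coe_norm_int]
  rcases h with h | h <;> rw [h] <;> norm_num

lemma norm_of_isUnit {x : 𝒪} (h : IsUnit x) :
    Algebra.norm ℤ x = 1 ∨ Algebra.norm ℤ x = -1 :=
  Int.isUnit_iff.mp (h.map (Algebra.norm ℤ))

lemma prime_of_norm {x : 𝒪} {p : ℕ} (hp : p.Prime) (h : (Algebra.norm ℤ x).natAbs = p) :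
    Prime x := by
  rw [← irreducible_iff_prime]
  refine ⟨fun hu => ?_, fun a b hab => ?_⟩
  · have := hp.one_lt
    rcases norm_of_isUnit hu with h' | h' <;> rw [h'] at h <;> simp at h <;> omega
  · rw [hab, map_mul, Int.natAbs_mul] at h
    rcases Nat.prime_mul_iff.mp (h ▸ hp) with ⟨-, h1⟩ | ⟨-, h1⟩
    · exact Or.inr (isUnit_of_norm (Int.natAbs_eq_iff.mp h1))
    · exact Or.inl (isUnit_of_norm (Int.natAbs_eq_iff.mp h1))

lemma norm_omega : Algebra.norm ℤ w = -2 := by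
  have h := norm_elemInt 0 1 0
  simpa using h

/-- The prime `π` of norm `-11`, ramified. -/
def piEleven : 𝒪 := -3 + 4 * w - 2 * w ^ 2

lemma norm_piEleven : Algebra.norm ℤ piEleven = -11 := by
  have h := norm_elemInt (-3) 4 (-2)
  rw [piEleven, show (-3 + 4 * w - 2 * w ^ 2 : 𝒪)
    = ((-3 : ℤ) : 𝒪) + ((4 : ℤ) : 𝒪) * w + ((-2 : ℤ) : 𝒪) * w ^ 2 by push_cast; ring, h]
  norm_num

lemma omega_prime : Prime w := prime_of_norm Nat.prime_two (by rw [norm_omega]; rfl)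

lemma piEleven_prime : Prime piEleven :=
  prime_of_norm (by norm_num : Nat.Prime 11) (by rw [norm_piEleven]; rfl)

/-- The unit `1 - ω`, of norm `1`. -/
def unitU : (𝒪)ˣ :=
  ⟨1 - w, w ^ 2 - w - 1, by linear_combination -omegaInt_rel,
    by linear_combination -omegaInt_rel⟩

lemma norm_unitU : Algebra.norm ℤ (unitU : 𝒪) = 1 := by
  have h := norm_elemInt 1 (-1) 0
  rw [show ((unitU : (𝒪)ˣ) : 𝒪) = ((1 : ℤ) : 𝒪) + ((-1 : ℤ) : 𝒪) * w + ((0 : ℤ) : 𝒪) * w ^ 2 by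
    show 1 - w = _; push_cast; ring, h]
  norm_num

/-- Clearing denominators. -/
lemma exists_scaled (x : K) : ∃ (g : ℤ) (a b c : ℤ), g ≠ 0 ∧ (g : K) * x = elem a b c := by
  obtain ⟨a, b, c, rfl⟩ := exists_elem x
  refine ⟨(a.den : ℤ) * b.den * c.den, a.num * b.den * c.den, b.num * a.den * c.den,
    c.num * a.den * b.den, by positivity, ?_⟩
  have ha : (a.num : ℚ) = a * a.den := (Rat.mul_den_eq_num a).symm
  have hb : (b.num : ℚ) = b * b.den := (Rat.mul_den_eq_num b).symm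
  have hc : (c.num : ℚ) = c * c.den := (Rat.mul_den_eq_num c).symm
  push_cast
  rw [ha, hb, hc]
  simp only [elem, map_mul, map_natCast]
  ring

lemma elem_sq (a b c : ℤ) : elem a b c ^ 2 =
    elem ((sqCoord0 a b c : ℤ) : ℚ) ((sqCoord1 a b c : ℤ) : ℚ) ((sqCoord2 a b c : ℤ) : ℚ) := by
  rw [sq, elem_mul]
  congr 1 <;> (simp only [sqCoord0, sqCoord1, sqCoord2]; push_cast; ring)

lemma natCast_mul_elem (g : ℤ) (a b c : ℚ) :
    (g : K) * elem a b c = elem (g * a) (g * b) (g * c) := by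
  simp only [elem, map_mul, map_intCast]; ring

lemma unitU_not_square {s : ℤ} (hs : s = 1 ∨ s = -1) (x : 𝒪) :
    (s : 𝒪) * (unitU : 𝒪) ≠ x ^ 2 := by
  intro h
  obtain ⟨g, a, b, c, hg, hgx⟩ := exists_scaled (x : K)
  have hc := congrArg (fun y : 𝒪 => (g : K) ^ 2 * (y : K)) h
  have hu : algebraMap 𝒪 K ((unitU : (𝒪)ˣ) : 𝒪) = elem 1 (-1) 0 := by
    show ((1 - w : 𝒪) : K) = _
    push_cast [coe_omegaInt]
    simp [elem]; ring
  simp only [map_mul, map_pow, map_intCast] at hc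
  rw [← mul_pow, hgx, elem_sq, ← mul_assoc, ← Int.cast_pow, ← Int.cast_mul, hu,
    natCast_mul_elem] at hc
  obtain ⟨h0, h1, h2⟩ := elem_inj hc
  simp only [mul_one, mul_neg, mul_zero] at h0 h1 h2
  have h0' : g ^ 2 * s = sqCoord0 a b c := by exact_mod_cast h0
  have h1' : -(g ^ 2 * s) = sqCoord1 a b c := by exact_mod_cast h1
  have h2' : 0 = sqCoord2 a b c := by exact_mod_cast h2
  clear hc hgx h0 h1 h2 h hu x
  induction hn : g.natAbs using Nat.strong_induction_on generalizing g a b c with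
  | _ n ih =>
  simp only [sqCoord0, sqCoord1, sqCoord2] at h0' h1' h2'
  have hs2 : s * s = 1 := by rcases hs with rfl | rfl <;> norm_num
  have hge : Even g := by
    have : Even (g ^ 2) :=
      ⟨s * (-a * b + c ^ 2), by linear_combination (-s) * h1' - (g ^ 2) * hs2⟩
    exact (Int.even_pow.mp this).1
  obtain ⟨g', rfl⟩ := hge
  have ha : Even a := by
    have : Even (a ^ 2) := ⟨2 * g' ^ 2 * s + 2 * b * c + 2 * c ^ 2, by linarith⟩
    exact (Int.even_pow.mp this).1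
  obtain ⟨a', rfl⟩ := ha
  have hb : Even b := by
    have : Even (b ^ 2) := ⟨-(2 * a' * c + 2 * b * c + 2 * c ^ 2), by linarith⟩
    exact (Int.even_pow.mp this).1
  obtain ⟨b', rfl⟩ := hb
  have hc : Even c := by
    have : Even (c ^ 2) := ⟨g' ^ 2 * s + 2 * a' * b', by linarith⟩
    exact (Int.even_pow.mp this).1
  obtain ⟨c', rfl⟩ := hc
  exact ih g'.natAbs (by omega) (g := g') (a := a') (b := b') (c := c') (by omega)
    (by simp only [sqCoord0]; linarith) (by simp only [sqCoord1]; linarith)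
    (by simp only [sqCoord2]; linarith) rfl

/-- Every unit is `± 1` or `± (1 - ω)` times a square. -/
lemma unit_class (v : (𝒪)ˣ) : ∃ (s : ℤ) (k : ℕ) (z : 𝒪), (s = 1 ∨ s = -1) ∧ k ≤ 1 ∧
    (v : 𝒪) = (s : 𝒪) * (unitU : 𝒪) ^ k * z ^ 2 := by
  obtain ⟨f, hf⟩ : ∃ f : (𝒪)ˣ, ∀ x : (𝒪)ˣ, ∃ (n : ℤ), x = f ^ n ∨ x = -f ^ n := by
    have h1 := unit_rank
    refine ⟨Units.fundSystem K ⟨0, by omega⟩, fun x => ?_⟩
    obtain ⟨⟨ζ, e⟩, hx, -⟩ := Units.exist_unique_eq_mul_prod K x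
    have huniv : (Finset.univ : Finset (Fin (Units.rank K))) = {⟨0, by omega⟩} := by
      ext i; simp [Fin.ext_iff]; omega
    simp only [huniv, Finset.prod_singleton] at hx
    refine ⟨e ⟨0, by omega⟩, ?_⟩
    rcases Units.torsion_eq_one_or_neg_one_of_odd_finrank
      (by rw [finrank_cubicField]; decide) ζ with h | h <;> rw [h] at hx
    · exact Or.inl (by rw [hx, one_mul])
    · exact Or.inr (by rw [hx, neg_one_mul])
  obtain ⟨n, hn⟩ := hf unitU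
  have hodd : Odd n := by
    by_contra hev
    obtain ⟨j, rfl⟩ := Int.not_odd_iff_even.mp hev
    rcases hn with h | h
    · exact unitU_not_square (Or.inl rfl) ((f ^ j : (𝒪)ˣ) : 𝒪)
        (by rw [h, zpow_add]; push_cast; ring)
    · exact unitU_not_square (Or.inr rfl) ((f ^ j : (𝒪)ˣ) : 𝒪)
        (by rw [h, zpow_add]; push_cast; ring)
  obtain ⟨j, rfl⟩ := hodd
  have hfU : ∃ (s : ℤ) (z : (𝒪)ˣ), (s = 1 ∨ s = -1) ∧
      (f : 𝒪) = (s : 𝒪) * (unitU : 𝒪) * (z : 𝒪) ^ 2 := by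
    have key : (f : 𝒪) = ((f ^ (2 * j + 1) : (𝒪)ˣ) : 𝒪) * ((f ^ (-j) : (𝒪)ˣ) : 𝒪) ^ 2 := by
      rw [← Units.val_pow_eq_pow_val, ← Units.val_mul]
      congr 1
      group
    rcases hn with h | h
    · exact ⟨1, f ^ (-j), Or.inl rfl, by rw [h, Int.cast_one, one_mul]; exact key⟩
    · exact ⟨-1, f ^ (-j), Or.inr rfl, by rw [h]; push_cast; linear_combination key⟩
  obtain ⟨s₀, z₀, hs₀, hfz⟩ := hfU
  obtain ⟨q, hq⟩ := hf v
  rcases Int.even_or_odd' q with ⟨i, rfl | rfl⟩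
  · have key : ((f ^ (2 * i) : (𝒪)ˣ) : 𝒪) = ((f ^ i : (𝒪)ˣ) : 𝒪) ^ 2 := by
      rw [← Units.val_pow_eq_pow_val]; congr 1; group
    rcases hq with h | h
    · exact ⟨1, 0, _, Or.inl rfl, by norm_num, by rw [h, key]; push_cast; ring⟩
    · exact ⟨-1, 0, _, Or.inr rfl, by norm_num, by rw [h, Units.val_neg, key]; push_cast; ring⟩
  · have key : ((f ^ (2 * i + 1) : (𝒪)ˣ) : 𝒪) = (f : 𝒪) * ((f ^ i : (𝒪)ˣ) : 𝒪) ^ 2 := by
      rw [← Units.val_pow_eq_pow_val, ← Units.val_mul]; congr 1; group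
    rcases hq with h | h
    · exact ⟨s₀, 1, (z₀ : 𝒪) * ((f ^ i : (𝒪)ˣ) : 𝒪), hs₀, le_rfl, by rw [h, key, hfz]; ring⟩
    · exact ⟨-s₀, 1, (z₀ : 𝒪) * ((f ^ i : (𝒪)ˣ) : 𝒪), by omega, le_rfl,
        by rw [h, Units.val_neg, key, hfz]; push_cast; ring⟩

lemma eq_zero_of_isSquare {i j : ℕ} (hi : i ≤ 1) (hj : j ≤ 1) (h : IsSquare (2 ^ i * 11 ^ j)) :
    i = 0 ∧ j = 0 := by
  obtain ⟨r, hr⟩ := h
  have hr' : r ≤ 4 := by
    interval_cases i <;> interval_cases j <;> norm_num at hr <;> nlinarith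
  interval_cases i <;> interval_cases j <;> interval_cases r <;> simp_all

theorem squareClassInput : SquareClassInput := by
  intro e m W he hcop hW
  set η : 𝒪 := w ^ 2 - 2 * w with hη
  have hη3 : η ^ 3 = 4 * η + 4 := by
    rw [hη]; linear_combination (w ^ 3 - 4 * w ^ 2 + 4 * w - 2) * omegaInt_rel
  have hη2 : η ^ 2 = 4 - 2 * w := by
    rw [hη]; linear_combination (w - 2) * omegaInt_rel
  set δ : 𝒪 := (e : 𝒪) ^ 2 + (m : 𝒪) * η with hδ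
  set δ' : 𝒪 := (e : 𝒪) ^ 4 - (e : 𝒪) ^ 2 * (m : 𝒪) * η + (m : 𝒪) ^ 2 * (η ^ 2 - 4) with hδ'
  have hWO : (W : 𝒪) ^ 2 = (e : 𝒪) ^ 6 - 4 * (e : 𝒪) ^ 2 * (m : 𝒪) ^ 2 + 4 * (m : 𝒪) ^ 3 := by
    exact_mod_cast congrArg (fun z : ℤ => (z : 𝒪)) hW
  have hmul : δ * δ' = (W : 𝒪) ^ 2 := by
    rw [hWO, hδ, hδ']; linear_combination (m : 𝒪) ^ 3 * hη3
  have hcoord : δ = ((e ^ 2 : ℤ) : 𝒪) + ((-2 * m : ℤ) : 𝒪) * w + ((m : ℤ) : 𝒪) * w ^ 2 := by
    rw [hδ, hη]; push_cast; ring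
  have hNδ : Algebra.norm ℤ δ = W ^ 2 := by
    rw [hcoord, norm_elemInt, hW]; ring
  have hW0 : W ≠ 0 := by
    rintro rfl
    rcases eq_or_ne m 0 with rfl | hm
    · exact he (pow_eq_zero_iff (by norm_num : (6 : ℕ) ≠ 0) |>.mp (by linarith))
    · have hm0 : (m : ℚ) ≠ 0 := by exact_mod_cast hm
      have hW' : (e : ℚ) ^ 6 - 4 * (e : ℚ) ^ 2 * (m : ℚ) ^ 2 + 4 * (m : ℚ) ^ 3 = 0 := by
        exact_mod_cast congrArg (fun z : ℤ => (z : ℚ)) hW.symm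
      have he0 : (e : ℚ) ^ 2 ≠ 0 := pow_ne_zero 2 (by exact_mod_cast he)
      apply cubic_no_root (2 * (m : ℚ) / (e : ℚ) ^ 2)
      field_simp
      linear_combination 2 * hW'
  have hδ0 : δ ≠ 0 := fun h => pow_ne_zero 2 hW0 (by rw [← hNδ, h, Algebra.norm_zero])
  obtain ⟨g, hg⟩ := (IsPrincipalIdealRing.principal (Ideal.span ({δ, δ'} : Set 𝒪))).principal
  change Ideal.span ({δ, δ'} : Set 𝒪) = Ideal.span {g} at hg
  have hgδ : g ∣ δ := Ideal.mem_span_singleton.mp (hg ▸ Ideal.subset_span (by simp))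
  have hgδ' : g ∣ δ' := Ideal.mem_span_singleton.mp (hg ▸ Ideal.subset_span (by simp))
  obtain ⟨p, q, hpq⟩ : ∃ p q, p * δ + q * δ' = g :=
    Ideal.mem_span_pair.mp (hg ▸ Ideal.mem_span_singleton_self g)
  obtain ⟨α, hα⟩ := hgδ
  obtain ⟨β, hβ⟩ := hgδ'
  have hg0 : g ≠ 0 := fun h => hδ0 (by rw [hα, h, zero_mul])
  have hαβ : IsCoprime α β :=
    ⟨p, q, mul_left_cancel₀ hg0 (by rw [hα, hβ] at hpq; linear_combination hpq)⟩
  obtain ⟨W', hW'⟩ : g ∣ (W : 𝒪) :=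
    (IsIntegrallyClosed.pow_dvd_pow_iff two_ne_zero).mp
      ⟨α * β, by rw [← hmul, hα, hβ]; ring⟩
  have hαβ' : α * β = W' ^ 2 := mul_left_cancel₀ (pow_ne_zero 2 hg0) (by
    rw [hα, hβ, hW'] at hmul; linear_combination hmul)
  obtain ⟨z₁, v₁, hv₁⟩ := exists_associated_pow_of_mul_eq_pow' hαβ hαβ'
  -- `g` divides `ω⁴ π`
  have hgm : IsCoprime g (m : 𝒪) := by
    obtain ⟨x, y, hxy⟩ := hcop
    refine IsCoprime.of_isCoprime_of_dvd_left ?_ ⟨α, hα⟩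
    refine ⟨(x : 𝒪), (y : 𝒪) - (x : 𝒪) * η, ?_⟩
    have : (x : 𝒪) * (e : 𝒪) ^ 2 + (y : 𝒪) * (m : 𝒪) = 1 := by
      exact_mod_cast congrArg (fun z : ℤ => (z : 𝒪)) hxy
    rw [hδ]; linear_combination this
  have hv : IsUnit (-1 + 2 * w - w ^ 2 : 𝒪) := by
    refine isUnit_of_norm (Or.inr ?_)
    rw [show (-1 + 2 * w - w ^ 2 : 𝒪)
      = ((-1 : ℤ) : 𝒪) + ((2 : ℤ) : 𝒪) * w + ((-1 : ℤ) : 𝒪) * w ^ 2 by push_cast; ring,
      norm_elemInt]
    norm_num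
  have hgdvd : g ∣ w ^ 4 * piEleven := by
    have h1 : g ∣ (m : 𝒪) ^ 2 * (3 * η ^ 2 - 4) := by
      have : (m : 𝒪) ^ 2 * (3 * η ^ 2 - 4) = δ' - δ * ((e : 𝒪) ^ 2 - 2 * (m : 𝒪) * η) := by
        rw [hδ, hδ']; ring
      rw [this]; exact dvd_sub ⟨β, hβ⟩ ((Dvd.intro α hα.symm).mul_right _)
    have h2 := (hgm.pow_right (n := 2)).dvd_of_dvd_mul_left h1
    have h3 : 3 * η ^ 2 - 4 = w ^ 4 * piEleven * (-1 + 2 * w - w ^ 2) := by
      rw [hη2, piEleven]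
      linear_combination (-2 * w ^ 5 + 4 * w ^ 4 - 5 * w ^ 3 + 4 * w ^ 2 - 3 * w + 4) * omegaInt_rel
    rw [h3] at h2
    exact hv.dvd_mul_right.mp h2
  obtain ⟨g₁, g₂, hg₁, hg₂, rfl⟩ := exists_dvd_and_dvd_of_dvd_mul hgdvd
  obtain ⟨i, hi, v₂, hv₂⟩ := (dvd_prime_pow omega_prime 4).mp hg₁
  obtain ⟨j, hj, v₃, hv₃⟩ : ∃ j ≤ 1, Associated g₂ (piEleven ^ j) :=
    (dvd_prime_pow piEleven_prime 1).mp (by rwa [pow_one])
  have hdecomp : δ = ((v₁ * v₂⁻¹ * v₃⁻¹ : (𝒪)ˣ) : 𝒪) * w ^ i * piEleven ^ j * z₁ ^ 2 := by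
    rw [hα, ← hv₁, ← hv₂, ← hv₃]
    push_cast
    linear_combination (-(g₁ * g₂ * z₁ ^ 2 * (v₁ : 𝒪)) * (v₃ : 𝒪) * (↑v₃⁻¹ : 𝒪)) * v₂.mul_inv
      + (-(g₁ * g₂ * z₁ ^ 2 * (v₁ : 𝒪))) * v₃.mul_inv
  generalize v₁ * v₂⁻¹ * v₃⁻¹ = v at hdecomp
  obtain ⟨i', i₀, rfl, hi₀⟩ : ∃ i' i₀, i = 2 * i' + i₀ ∧ i₀ ≤ 1 :=
    ⟨i / 2, i % 2, by omega, by omega⟩
  obtain ⟨s, k, z₂, hs, hk, hvz⟩ := unit_class v
  set γ : 𝒪 := z₂ * w ^ i' * z₁ with hγ
  have hd2 : δ = (s : 𝒪) * (unitU : 𝒪) ^ k * w ^ i₀ * piEleven ^ j * γ ^ 2 := by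
    rw [hdecomp, hvz, hγ]; ring
  -- norms
  have hN := congrArg (Algebra.norm ℤ) hd2
  simp only [map_mul, map_pow, norm_unitU, norm_omega, norm_piEleven, hNδ, one_pow, mul_one] at hN
  have hNs : Algebra.norm ℤ (s : 𝒪) = s ^ 3 := by
    rw [show (s : 𝒪) = (s : 𝒪) + ((0 : ℤ) : 𝒪) * w + ((0 : ℤ) : 𝒪) * w ^ 2 by simp, norm_elemInt]
    ring
  rw [hNs] at hN
  set Y := Algebra.norm ℤ γ with hY
  have hY0 : Y ≠ 0 := fun h => pow_ne_zero 2 hW0 (by rw [hN, h]; ring)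
  have hnat := congrArg Int.natAbs hN
  have hsabs : s.natAbs = 1 := by rcases hs with rfl | rfl <;> rfl
  simp only [Int.natAbs_mul, Int.natAbs_pow, hsabs, one_pow, one_mul] at hnat
  norm_num at hnat
  have hsq : IsSquare (2 ^ i₀ * 11 ^ j) := by
    have hYd : Y.natAbs ∣ W.natAbs :=
      (Nat.pow_dvd_pow_iff two_ne_zero).mp ⟨2 ^ i₀ * 11 ^ j, by rw [hnat]; ring⟩
    obtain ⟨r, hr⟩ := hYd
    refine ⟨r, ?_⟩
    rw [hr] at hnat
    apply Nat.eq_of_mul_eq_mul_left (Nat.pos_of_ne_zero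
      (pow_ne_zero 2 (Int.natAbs_ne_zero.mpr hY0)))
    linarith
  have hij : i₀ = 0 ∧ j = 0 := eq_zero_of_isSquare hi₀ hj hsq
  obtain ⟨rfl, rfl⟩ := hij
  have hs1 : s = 1 := by
    rcases hs with rfl | rfl
    · rfl
    · exfalso
      norm_num at hN
      nlinarith [pow_two_pos_of_ne_zero hY0, pow_two_pos_of_ne_zero hW0]
  subst hs1
  simp only [pow_zero, mul_one, Int.cast_one, one_mul] at hd2
  -- coordinates
  obtain ⟨G, a, b, c, hG, hGγ⟩ := exists_scaled (γ : K)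
  refine ⟨G, a, b, c, hG, ?_⟩
  have hcK := congrArg (fun y : 𝒪 => (G : K) ^ 2 * (y : K)) hd2
  simp only [map_mul, map_pow] at hcK
  have hL : (G : K) ^ 2 * (δ : K) =
      elem (((G ^ 2 * e ^ 2 : ℤ)) : ℚ) (((G ^ 2 * (-2 * m) : ℤ)) : ℚ) (((G ^ 2 * m : ℤ)) : ℚ) := by
    rw [hcoord, coe_elemInt, ← Int.cast_pow, natCast_mul_elem]
    congr 1 <;> push_cast <;> ring
  interval_cases k
  · left
    rw [hL, pow_zero, one_mul, ← mul_pow (G : K), hGγ, elem_sq] at hcK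
    obtain ⟨e0, e1, e2⟩ := elem_inj hcK
    exact ⟨by exact_mod_cast e0, by exact_mod_cast e1, by exact_mod_cast e2⟩
  · right
    have hu : algebraMap 𝒪 K ((unitU : (𝒪)ˣ) : 𝒪) = elem 1 (-1) 0 := by
      show ((1 - w : 𝒪) : K) = _
      push_cast [coe_omegaInt]
      simp [elem]; ring
    rw [hL, pow_one, mul_left_comm ((G : K) ^ 2), ← mul_pow (G : K), hGγ, elem_sq, hu, elem_mul] at hcK
    obtain ⟨e0, e1, e2⟩ := elem_inj hcK
    ring_nf at e0 e1 e2 ⊢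
    exact ⟨by exact_mod_cast e0, by exact_mod_cast e1, by exact_mod_cast e2⟩

/-- `W² = e⁶ - 4e²m² + 4m³` has only the cuspidal solutions. -/
theorem integral_point_eq_cusp {e m W : ℤ} (he : e ≠ 0) (hcop : IsCoprime (e ^ 2) m)
    (hW : W ^ 2 = e ^ 6 - 4 * e ^ 2 * m ^ 2 + 4 * m ^ 3) : m = 0 ∨ m = e ^ 2 :=
  point_eq_cusp squareClassInput he hcop hW

/-- Integral model of a rational point of `y² + y = x³ - x²`. -/
lemma exists_integral_model {x y : ℚ} (h : y ^ 2 + y = x ^ 3 - x ^ 2) :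
    ∃ e m W : ℤ, e ≠ 0 ∧ IsCoprime (e ^ 2) m ∧ x = (m : ℚ) / (e : ℚ) ^ 2 ∧
      W ^ 2 = e ^ 6 - 4 * e ^ 2 * m ^ 2 + 4 * m ^ 3 := by
  obtain ⟨N, hN⟩ : ∃ N, N = x.num := ⟨_, rfl⟩
  obtain ⟨D, hD⟩ : ∃ D : ℤ, D = x.den := ⟨_, rfl⟩
  obtain ⟨n, hn⟩ : ∃ n, n = y.num := ⟨_, rfl⟩
  obtain ⟨d, hd⟩ : ∃ d : ℤ, d = y.den := ⟨_, rfl⟩
  have hcop : IsCoprime N D := by
    rw [Int.isCoprime_iff_gcd_eq_one, hN, hD]; exact x.reduced
  have hcop' : IsCoprime n d := by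
    rw [Int.isCoprime_iff_gcd_eq_one, hn, hd]; exact y.reduced
  have hDpos : 0 < D := by rw [hD]; exact_mod_cast x.pos
  have hdpos : 0 < d := by rw [hd]; exact_mod_cast y.pos
  have hD0 : (D : ℚ) ≠ 0 := by exact_mod_cast hDpos.ne'
  have hd0 : (d : ℚ) ≠ 0 := by exact_mod_cast hdpos.ne'
  have hx : x = (N : ℚ) / D := by rw [hN, hD]; push_cast; exact x.num_div_den.symm
  have hy : y = (n : ℚ) / d := by rw [hn, hd]; push_cast; exact y.num_div_den.symm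
  have heq : (n * (n + d)) * D ^ 3 = d ^ 2 * (N ^ 3 - N ^ 2 * D) := by
    rw [hx, hy] at h
    field_simp at h
    exact_mod_cast (by linear_combination h :
      ((n : ℚ) * (n + d)) * (D : ℚ) ^ 3 = (d : ℚ) ^ 2 * ((N : ℚ) ^ 3 - (N : ℚ) ^ 2 * D))
  have h1 : d ^ 2 ∣ D ^ 3 := by
    have hnd : IsCoprime d (n * (n + d)) :=
      hcop'.symm.mul_right (by simpa using hcop'.symm.add_mul_left_right 1)
    exact (hnd.pow_left (m := 2)).dvd_of_dvd_mul_left ⟨_, heq⟩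
  have h2 : D ^ 3 ∣ d ^ 2 := by
    have hND : IsCoprime D (N ^ 2 * (N + (-1) * D)) :=
      hcop.symm.pow_right.mul_right (by simpa [mul_comm] using hcop.symm.add_mul_left_right (-1))
    exact (hND.pow_left (m := 3)).dvd_of_dvd_mul_right
      ⟨n * (n + d), by linear_combination -heq⟩
  have hsq : d ^ 2 = D ^ 3 := Int.dvd_antisymm (by positivity) (by positivity) h1 h2
  obtain ⟨e, he⟩ : D ∣ d := (Int.pow_dvd_pow_iff two_ne_zero).mp ⟨D, by rw [hsq]; ring⟩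
  have heD : e ^ 2 = D := by
    apply mul_left_cancel₀ (pow_ne_zero 2 hDpos.ne' : D ^ 2 ≠ 0)
    rw [he] at hsq; linear_combination hsq
  have hmain : n * (n + d) = N ^ 3 - N ^ 2 * D := by
    apply mul_right_cancel₀ (pow_ne_zero 3 hDpos.ne' : D ^ 3 ≠ 0)
    rw [heq, hsq]; ring
  refine ⟨e, N, 2 * n + d, fun h0 => hDpos.ne' (by rw [← heD, h0]; ring), heD ▸ hcop.symm, ?_, ?_⟩
  · rw [hx, ← heD, Int.cast_pow]
  · subst he
    rw [← heD] at hmain ⊢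
    linear_combination 4 * hmain

/-- The rational points of `X₁(11) : y² + y = x³ - x²` are cuspidal. -/
theorem rational_point_X1_eleven {x y : ℚ} (h : y ^ 2 + y = x ^ 3 - x ^ 2) : x = 0 ∨ x = 1 := by
  obtain ⟨e, m, W, he, hcop, hx, hW⟩ := exists_integral_model h
  rcases integral_point_eq_cusp he hcop hW with hm | hm
  · left; rw [hx, hm]; simp
  · right
    have he0 : (e : ℚ) ^ 2 ≠ 0 := pow_ne_zero 2 (by exact_mod_cast he)
    rw [hx, hm, Int.cast_pow, div_self he0]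

end

end FLTAgent.X1Eleven
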